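import Mathlib

/-
S56 / [P-TW] / H1Van — step (3) of helper61's plan (board 3903), helper96.

`k` a field of odd characteristic `p`, `B ≤ GL₂(k)` a finite group of UPPER TRIANGULAR matrices,
`X = {x : [1 x; 0 1] ∈ B}`.  The twisted adjoint action on trace-zero matrices
`g • m = det g • (g m g⁻¹) = g * m * adj g` (`tw`, polynomial form; this is `ad⁰(1) ≅ Sym²`).

Main result `IsCoc.exists_coboundary_on_unip`: if `ψ` is a trace-zero `tw`-cocycle on `B`, the torus
of `B ∩ SL₂` is large (`|X| ≤ 2 |T| + 1` for a finite set `T` of ratios `b₀₀/b₁₁`, `det b = 1`,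
`b ∈ B`), and (only used when `p = 5`) some `b ∈ B` has `(det b)² ≠ 1`, then there is a trace-zero
`m` with `ψ (u x) = u x • m - m` for all `x ∈ X`: after subtracting ONE coboundary `ψ` vanishes on
the unipotent part `P = B ∩ U` (a Sylow `p`-subgroup of the ambient group in the application), and
coset averaging over `G/P` finishes `H¹(G, ad⁰(1)) = 0`.

Proof (all explicit): write `ψ (u x) = [b(x) a(x); d(x) -b(x)]`.  The cocycle identity gives
`d` additive, `b(x+y) = b x + b y + x d(y)`, `a(x+y) = a x + a y - 2 x b(y) - x² d(y)`; symmetry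
forces `d = λ x`; `p = 3` forces `λ = 0` (evaluate at `3x = 0`); for `p ≥ 5`, `λ ≠ 0` forces
`b₀₀ = b₁₁³` on all of `B`, hence `T ⊆ {±1}`, `|X| ≤ 5`, `p = 5 = |X|`, and then `(det b)² = 1` on
`B`.  With `d = 0`: `b = μ x`, removed by the coboundary of `μ F`; then `a` is additive, equivariant
under the determinant-one torus up to a homomorphism into `(k,+)` of a group of order prime to `p`
(hence zero), and an additive subgroup of `X` containing `{0} ∪ T x₀` has more than `|X|/2`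
elements, so `a = κ x` on `X`.
-/

set_option autoImplicit false
set_option linter.unusedSimpArgs false
set_option linter.unusedVariables false

namespace Fermat.Agent.GP.TW.H1Van.Unip

open Matrix Matrix.GeneralLinearGroup

variable {k : Type*} [Field k]

/-- Twisted adjoint action in polynomial form: `g * m * adj g = det g • (g * m * g⁻¹)`. -/
def tw (g m : Matrix (Fin 2) (Fin 2) k) : Matrix (Fin 2) (Fin 2) k := g * m * g.adjugate

theorem tw_eq_det_smul_conj (g : GL (Fin 2) k) (m : Matrix (Fin 2) (Fin 2) k) :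
    tw g.val m = (g.val.det) • (g.val * m * (g⁻¹).val) := by
  unfold tw
  have h : (g⁻¹).val = (g.val)⁻¹ := Matrix.coe_units_inv g
  have hdet : g.val.det ≠ 0 := by
    have := g.isUnit
    exact (Matrix.isUnit_iff_isUnit_det _).mp this |>.ne_zero
  rw [h, Matrix.inv_def, Ring.inverse_eq_inv', Matrix.mul_smul, smul_smul, mul_inv_cancel₀ hdet, one_smul]

theorem tw_one (m : Matrix (Fin 2) (Fin 2) k) : tw 1 m = m := by simp [tw]

theorem tw_mul (g h m : Matrix (Fin 2) (Fin 2) k) : tw (g * h) m = tw g (tw h m) := by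
  simp [tw, Matrix.adjugate_mul_distrib, Matrix.mul_assoc]

theorem tw_add (g m n : Matrix (Fin 2) (Fin 2) k) : tw g (m + n) = tw g m + tw g n := by
  simp [tw, Matrix.mul_add, Matrix.add_mul]

theorem tw_sub (g m n : Matrix (Fin 2) (Fin 2) k) : tw g (m - n) = tw g m - tw g n := by
  simp [tw, Matrix.mul_sub, Matrix.sub_mul]

theorem tw_zero (g : Matrix (Fin 2) (Fin 2) k) : tw g 0 = 0 := by simp [tw]

theorem trace_tw (g m : Matrix (Fin 2) (Fin 2) k) : (tw g m).trace = g.det * m.trace := by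
  unfold tw
  rw [Matrix.trace_mul_cycle, Matrix.adjugate_mul, Matrix.smul_mul, Matrix.one_mul, Matrix.trace_smul,
    smul_eq_mul]

theorem tw_apply_00 (g m : Matrix (Fin 2) (Fin 2) k) :
    tw g m 0 0 = (g 0 0 * m 0 0 + g 0 1 * m 1 0) * g 1 1 - (g 0 0 * m 0 1 + g 0 1 * m 1 1) * g 1 0 := by
  simp [tw, Matrix.mul_apply, Fin.sum_univ_two, Matrix.adjugate_fin_two]; ring

theorem tw_apply_01 (g m : Matrix (Fin 2) (Fin 2) k) :
    tw g m 0 1 = -(g 0 0 * m 0 0 + g 0 1 * m 1 0) * g 0 1 + (g 0 0 * m 0 1 + g 0 1 * m 1 1) * g 0 0 := by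
  simp [tw, Matrix.mul_apply, Fin.sum_univ_two, Matrix.adjugate_fin_two]; ring

theorem tw_apply_10 (g m : Matrix (Fin 2) (Fin 2) k) :
    tw g m 1 0 = (g 1 0 * m 0 0 + g 1 1 * m 1 0) * g 1 1 - (g 1 0 * m 0 1 + g 1 1 * m 1 1) * g 1 0 := by
  simp [tw, Matrix.mul_apply, Fin.sum_univ_two, Matrix.adjugate_fin_two]; ring

theorem tw_apply_11 (g m : Matrix (Fin 2) (Fin 2) k) :
    tw g m 1 1 = -(g 1 0 * m 0 0 + g 1 1 * m 1 0) * g 0 1 + (g 1 0 * m 0 1 + g 1 1 * m 1 1) * g 0 0 := by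
  simp [tw, Matrix.mul_apply, Fin.sum_univ_two, Matrix.adjugate_fin_two]; ring

/-- The hypotheses on `(B, ψ)`: `B` upper triangular, `ψ` a trace-zero twisted cocycle on `B`. -/
structure IsCoc (B : Subgroup (GL (Fin 2) k)) (ψ : GL (Fin 2) k → Matrix (Fin 2) (Fin 2) k) : Prop where
  upper : ∀ b ∈ B, b.val 1 0 = 0
  tr : ∀ b ∈ B, (ψ b).trace = 0
  coc : ∀ b ∈ B, ∀ c ∈ B, ψ (b * c) = ψ b + tw b.val (ψ c)

/-- The additive group of `x` with `[1 x; 0 1] ∈ B`. -/
def XX (B : Subgroup (GL (Fin 2) k)) : AddSubgroup k where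
  carrier := {x | upperRightHom x ∈ B}
  zero_mem' := by
    show upperRightHom 0 ∈ B
    rw [AddChar.map_zero_eq_one]; exact B.one_mem
  add_mem' := by
    intro a b ha hb
    show upperRightHom (a + b) ∈ B
    rw [AddChar.map_add_eq_mul]; exact B.mul_mem ha hb
  neg_mem' := by
    intro a ha
    show upperRightHom (-a) ∈ B
    rw [AddChar.map_neg_eq_inv]; exact B.inv_mem ha

theorem mem_XX {B : Subgroup (GL (Fin 2) k)} {x : k} : x ∈ XX B ↔ upperRightHom x ∈ B := Iff.rfl

section coc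

variable {B : Subgroup (GL (Fin 2) k)} {ψ : GL (Fin 2) k → Matrix (Fin 2) (Fin 2) k}

theorem IsCoc.psi_one (h : IsCoc B ψ) : ψ 1 = 0 := by
  have := h.coc 1 B.one_mem 1 B.one_mem
  simp only [mul_one, Units.val_one, tw_one] at this
  simpa using this

theorem IsCoc.apply_11 (h : IsCoc B ψ) {b : GL (Fin 2) k} (hb : b ∈ B) : ψ b 1 1 = - ψ b 0 0 := by
  have := h.tr b hb
  rw [Matrix.trace_fin_two] at this
  linear_combination this

theorem val_u (x : k) : (upperRightHom x).val = !![1, x; 0, 1] := rfl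
theorem val_u_00 (x : k) : (upperRightHom x).val 0 0 = 1 := rfl
theorem val_u_01 (x : k) : (upperRightHom x).val 0 1 = x := rfl
theorem val_u_10 (x : k) : (upperRightHom x).val 1 0 = 0 := rfl
theorem val_u_11 (x : k) : (upperRightHom x).val 1 1 = 1 := rfl

theorem IsCoc.dd_add (h : IsCoc B ψ) {x y : k} (hx : x ∈ XX B) (hy : y ∈ XX B) :
    ψ (upperRightHom (x + y)) 1 0 = ψ (upperRightHom x) 1 0 + ψ (upperRightHom y) 1 0 := by
  have := h.coc _ hx _ hy
  rw [← AddChar.map_add_eq_mul] at this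
  rw [this, Matrix.add_apply, tw_apply_10]
  simp

theorem IsCoc.bb_add (h : IsCoc B ψ) {x y : k} (hx : x ∈ XX B) (hy : y ∈ XX B) :
    ψ (upperRightHom (x + y)) 0 0 = ψ (upperRightHom x) 0 0 + ψ (upperRightHom y) 0 0
      + x * ψ (upperRightHom y) 1 0 := by
  have := h.coc _ hx _ hy
  rw [← AddChar.map_add_eq_mul] at this
  rw [this, Matrix.add_apply, tw_apply_00]
  simp; ring

theorem IsCoc.aa_add (h : IsCoc B ψ) {x y : k} (hx : x ∈ XX B) (hy : y ∈ XX B) :
    ψ (upperRightHom (x + y)) 0 1 = ψ (upperRightHom x) 0 1 + ψ (upperRightHom y) 0 1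
      - 2 * x * ψ (upperRightHom y) 0 0 - x ^ 2 * ψ (upperRightHom y) 1 0 := by
  have := h.coc _ hx _ hy
  rw [← AddChar.map_add_eq_mul] at this
  rw [this, Matrix.add_apply, tw_apply_01, h.apply_11 hy]
  simp; ring

theorem IsCoc.diag_ne_zero (h : IsCoc B ψ) {b : GL (Fin 2) k} (hb : b ∈ B) :
    b.val 0 0 ≠ 0 ∧ b.val 1 1 ≠ 0 := by
  have hdet : b.val.det ≠ 0 := by
    have := b.isUnit
    exact (Matrix.isUnit_iff_isUnit_det _).mp this |>.ne_zero
  rw [Matrix.det_fin_two, h.upper b hb] at hdet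
  constructor
  · intro h0; apply hdet; rw [h0]; ring
  · intro h0; apply hdet; rw [h0]; ring

theorem IsCoc.det_eq (h : IsCoc B ψ) {b : GL (Fin 2) k} (hb : b ∈ B) :
    b.val.det = b.val 0 0 * b.val 1 1 := by
  rw [Matrix.det_fin_two, h.upper b hb]; ring

/-- `b * u(x) = u(θ x) * b` with `θ = b₀₀ / b₁₁`. -/
theorem IsCoc.conj_u (h : IsCoc B ψ) {b : GL (Fin 2) k} (hb : b ∈ B) (x : k) :
    b * upperRightHom x = upperRightHom (b.val 0 0 / b.val 1 1 * x) * b := by
  have h11 := (h.diag_ne_zero hb).2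
  apply Units.ext
  rw [Units.val_mul, Units.val_mul, val_u, val_u]
  ext i j
  fin_cases i <;> fin_cases j <;>
    simp [Matrix.mul_apply, Fin.sum_univ_two, h.upper b hb]
  field_simp
  ring

theorem IsCoc.conj_mem (h : IsCoc B ψ) {b : GL (Fin 2) k} (hb : b ∈ B) {x : k} (hx : x ∈ XX B) :
    b.val 0 0 / b.val 1 1 * x ∈ XX B := by
  rw [mem_XX]
  have : upperRightHom (b.val 0 0 / b.val 1 1 * x) = b * upperRightHom x * b⁻¹ := by
    rw [h.conj_u hb]; group
  rw [this]
  exact B.mul_mem (B.mul_mem hb hx) (B.inv_mem hb)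

theorem IsCoc.conj_rel (h : IsCoc B ψ) {b : GL (Fin 2) k} (hb : b ∈ B) {x : k} (hx : x ∈ XX B) :
    ψ b + tw b.val (ψ (upperRightHom x)) =
      ψ (upperRightHom (b.val 0 0 / b.val 1 1 * x)) +
        tw (upperRightHom (b.val 0 0 / b.val 1 1 * x)).val (ψ b) := by
  rw [← h.coc b hb _ hx, h.conj_u hb, h.coc _ (h.conj_mem hb hx) b hb]

theorem IsCoc.conj_dd (h : IsCoc B ψ) {b : GL (Fin 2) k} (hb : b ∈ B) {x : k} (hx : x ∈ XX B) :
    ψ (upperRightHom (b.val 0 0 / b.val 1 1 * x)) 1 0 = b.val 1 1 ^ 2 * ψ (upperRightHom x) 1 0 := by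
  have := congrFun (congrFun (h.conj_rel hb hx) 1) 0
  rw [Matrix.add_apply, Matrix.add_apply, tw_apply_10, tw_apply_10, h.upper b hb] at this
  simp only [val_u_00, val_u_01, val_u_10, val_u_11] at this
  linear_combination -this

theorem IsCoc.conj_bb (h : IsCoc B ψ) {b : GL (Fin 2) k} (hb : b ∈ B) {x : k} (hx : x ∈ XX B) :
    ψ (upperRightHom (b.val 0 0 / b.val 1 1 * x)) 0 0 =
      b.val 0 0 * b.val 1 1 * ψ (upperRightHom x) 0 0 + b.val 1 1 * b.val 0 1 * ψ (upperRightHom x) 1 0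
        - b.val 0 0 / b.val 1 1 * x * ψ b 1 0 := by
  have := congrFun (congrFun (h.conj_rel hb hx) 0) 0
  rw [Matrix.add_apply, Matrix.add_apply, tw_apply_00, tw_apply_00, h.upper b hb] at this
  simp only [val_u_00, val_u_01, val_u_10, val_u_11] at this
  linear_combination -this

theorem IsCoc.conj_aa (h : IsCoc B ψ) {b : GL (Fin 2) k} (hb : b ∈ B) {x : k} (hx : x ∈ XX B) :
    ψ (upperRightHom (b.val 0 0 / b.val 1 1 * x)) 0 1 =
      b.val 0 0 ^ 2 * ψ (upperRightHom x) 0 1 - 2 * b.val 0 0 * b.val 0 1 * ψ (upperRightHom x) 0 0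
        - b.val 0 1 ^ 2 * ψ (upperRightHom x) 1 0
        + 2 * (b.val 0 0 / b.val 1 1 * x) * ψ b 0 0
        + (b.val 0 0 / b.val 1 1 * x) ^ 2 * ψ b 1 0 := by
  have := congrFun (congrFun (h.conj_rel hb hx) 0) 1
  rw [Matrix.add_apply, Matrix.add_apply, tw_apply_01, tw_apply_01,
    h.apply_11 hb, h.apply_11 hx] at this
  simp only [val_u_00, val_u_01, val_u_10, val_u_11] at this
  linear_combination -this

end coc

section main

variable {B : Subgroup (GL (Fin 2) k)} {ψ : GL (Fin 2) k → Matrix (Fin 2) (Fin 2) k}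

theorem IsCoc.u_zero (h : IsCoc B ψ) : ψ (upperRightHom 0) = 0 := by
  rw [AddChar.map_zero_eq_one]; exact h.psi_one

theorem injective_u : Function.Injective (fun x : XX B => (⟨upperRightHom x.1, x.2⟩ : B)) := by
  intro x y hxy
  have := congrArg Subtype.val hxy
  exact Subtype.ext (injective_upperRightHom this)

instance finite_XX [Finite B] : Finite (XX B) := Finite.of_injective _ injective_u

theorem IsCoc.dd_symm (h : IsCoc B ψ) {x y : k} (hx : x ∈ XX B) (hy : y ∈ XX B) :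
    x * ψ (upperRightHom y) 1 0 = y * ψ (upperRightHom x) 1 0 := by
  have h1 := h.bb_add hx hy
  have h2 := h.bb_add hy hx
  rw [add_comm y x] at h2
  linear_combination h2 - h1

theorem IsCoc.dd_eq_zero_of_char_three (h : IsCoc B ψ) [CharP k 3] {x : k} (hx : x ∈ XX B) :
    ψ (upperRightHom x) 1 0 = 0 := by
  by_cases hx0 : x = 0
  · subst hx0; rw [h.u_zero]; rfl
  have h3 : (3 : k) = 0 := by exact_mod_cast CharP.cast_eq_zero k 3
  have hxx : x + x ∈ XX B := (XX B).add_mem hx hx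
  have e1 := h.aa_add hx hx
  have e2 := h.bb_add hx hx
  have e3 := h.dd_add hx hx
  have e4 := h.aa_add hx hxx
  have hz : x + (x + x) = 0 := by linear_combination x * h3
  rw [hz, h.u_zero] at e4
  have : x ^ 2 * ψ (upperRightHom x) 1 0 = 0 := by
    simp only [Matrix.zero_apply] at e4
    rw [e1, e2, e3] at e4
    linear_combination (-1 : k) * e4 + (-(ψ (upperRightHom x) 0 1) + 2 * x * ψ (upperRightHom x) 0 0
      + 2 * x ^ 2 * ψ (upperRightHom x) 1 0) * h3
  rcases mul_eq_zero.mp this with h0 | h0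
  · exact absurd ((pow_eq_zero_iff (two_ne_zero)).mp h0) hx0
  · exact h0

theorem IsCoc.diag_of_dd_ne_zero (h : IsCoc B ψ) {x₀ : k} (hx₀ : x₀ ∈ XX B)
    (hne : ψ (upperRightHom x₀) 1 0 ≠ 0) {b : GL (Fin 2) k} (hb : b ∈ B) :
    b.val 0 0 = b.val 1 1 ^ 3 := by
  have hx0 : x₀ ≠ 0 := by
    rintro rfl; apply hne; rw [h.u_zero]; rfl
  have h11 := (h.diag_ne_zero hb).2
  have h1 := h.conj_dd hb hx₀
  have h2 := h.dd_symm hx₀ (h.conj_mem hb hx₀)
  rw [h1] at h2
  have h3 : b.val 1 1 ^ 2 = b.val 0 0 / b.val 1 1 := by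
    have : x₀ * ψ (upperRightHom x₀) 1 0 * (b.val 1 1 ^ 2 - b.val 0 0 / b.val 1 1) = 0 := by
      linear_combination h2
    rcases mul_eq_zero.mp this with h0 | h0
    · exact absurd h0 (mul_ne_zero hx0 hne)
    · exact sub_eq_zero.mp h0
  field_simp at h3
  linear_combination -h3

/-- Any nonzero `x ∈ X` generates a subgroup of order `p`, so `p ∣ |X|`. -/
theorem prime_dvd_card_XX [Finite B] (p : ℕ) [Fact p.Prime] [CharP k p] {x : k} (hx : x ∈ XX B)
    (hx0 : x ≠ 0) : p ∣ Nat.card (XX B) := by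
  have h1 : addOrderOf x = p := by
    apply addOrderOf_eq_prime _ hx0
    rw [nsmul_eq_mul, CharP.cast_eq_zero, zero_mul]
  have h2 : AddSubgroup.zmultiples x ≤ XX B := AddSubgroup.zmultiples_le.mpr hx
  have h3 := AddSubgroup.card_dvd_of_le h2
  rwa [Nat.card_zmultiples, h1] at h3

theorem IsCoc.dd_eq_zero (h : IsCoc B ψ) [Finite B] (p : ℕ) [Fact p.Prime] [CharP k p] (hp2 : p ≠ 2)
    (T : Finset k) (hT : ∀ θ ∈ T, ∃ b ∈ B, b.val.det = 1 ∧ θ = b.val 0 0 / b.val 1 1)
    (hTS : Nat.card (XX B) ≤ 2 * T.card + 1) (h5 : p = 5 → ∃ b ∈ B, b.val.det ^ 2 ≠ 1)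
    {x : k} (hx : x ∈ XX B) : ψ (upperRightHom x) 1 0 = 0 := by
  by_contra hne
  have hx0 : x ≠ 0 := by
    rintro rfl; apply hne; rw [h.u_zero]; rfl
  by_cases hp3 : p = 3
  · subst hp3
    exact hne (h.dd_eq_zero_of_char_three hx)
  -- every `θ ∈ T` is `±1`
  classical
  have hT2 : T ⊆ ({1, -1} : Finset k) := by
    intro θ hθ
    obtain ⟨b, hb, hdet, rfl⟩ := hT θ hθ
    have h11 := (h.diag_ne_zero hb).2
    have hd := h.diag_of_dd_ne_zero hx hne hb
    rw [h.det_eq hb, hd] at hdet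
    have h2 : b.val 1 1 ^ 3 / b.val 1 1 = b.val 1 1 ^ 2 := by field_simp
    have : (b.val 1 1 ^ 3 / b.val 1 1) ^ 2 = 1 := by
      rw [h2]; linear_combination hdet
    rw [hd]
    rcases sq_eq_one_iff.mp this with h1 | h1 <;> simp [h1]
  have hTc : T.card ≤ 2 := (Finset.card_le_card hT2).trans Finset.card_le_two
  have hpd := prime_dvd_card_XX (B := B) p hx hx0
  have hpos : 0 < Nat.card (XX B) := Nat.card_pos
  have hp5 : 5 ≤ p := by
    have := (Fact.out : p.Prime).two_le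
    by_contra hlt
    have : p = 4 := by omega
    subst this
    exact absurd (Fact.out : Nat.Prime 4) (by decide)
  have hple := Nat.le_of_dvd hpos hpd
  have hp : p = 5 := by omega
  have hcard : Nat.card (XX B) = 5 := by omega
  subst hp
  obtain ⟨b, hb, hbdet⟩ := h5 rfl
  apply hbdet
  have h11 := (h.diag_ne_zero hb).2
  have h00 := (h.diag_ne_zero hb).1
  have hd := h.diag_of_dd_ne_zero hx hne hb
  -- `X = ℤ x`
  have hXz : AddSubgroup.zmultiples x = XX B := by
    apply AddSubgroup.eq_of_le_of_card_ge (AddSubgroup.zmultiples_le.mpr hx)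
    rw [Nat.card_zmultiples, hcard]
    have h1 : addOrderOf x = 5 := by
      apply addOrderOf_eq_prime _ hx0
      rw [nsmul_eq_mul, CharP.cast_eq_zero, zero_mul]
    omega
  have hmem : b.val 0 0 / b.val 1 1 * x ∈ AddSubgroup.zmultiples x := by
    rw [hXz]; exact h.conj_mem hb hx
  obtain ⟨j, hj⟩ := AddSubgroup.mem_zmultiples_iff.mp hmem
  have hθ : b.val 0 0 / b.val 1 1 = (j : k) := by
    rw [zsmul_eq_mul] at hj
    exact (mul_right_cancel₀ hx0 hj).symm
  have hθ5 : (b.val 0 0 / b.val 1 1) ^ 5 = b.val 0 0 / b.val 1 1 := by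
    rw [hθ, ← frobenius_def, map_intCast]
  have h2 : b.val 0 0 / b.val 1 1 = b.val 1 1 ^ 2 := by rw [hd]; field_simp
  rw [h2] at hθ5
  have h8 : b.val 1 1 ^ 8 = 1 := by
    have : b.val 1 1 ^ 2 * (b.val 1 1 ^ 8 - 1) = 0 := by linear_combination hθ5
    rcases mul_eq_zero.mp this with h0 | h0
    · exact absurd ((pow_eq_zero_iff (two_ne_zero)).mp h0) h11
    · exact sub_eq_zero.mp h0
  rw [h.det_eq hb, hd]
  linear_combination h8

theorem IsCoc.bb_symm (h : IsCoc B ψ) (h2 : (2 : k) ≠ 0)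
    (hdd : ∀ x ∈ XX B, ψ (upperRightHom x) 1 0 = 0) {x y : k} (hx : x ∈ XX B) (hy : y ∈ XX B) :
    x * ψ (upperRightHom y) 0 0 = y * ψ (upperRightHom x) 0 0 := by
  have h1 := h.aa_add hx hy
  have h2' := h.aa_add hy hx
  rw [add_comm y x] at h2'
  rw [hdd y hy] at h1; rw [hdd x hx] at h2'
  have : 2 * (x * ψ (upperRightHom y) 0 0 - y * ψ (upperRightHom x) 0 0) = 0 := by
    linear_combination h1 - h2'
  rcases mul_eq_zero.mp this with h0 | h0
  · exact absurd h0 h2
  · exact sub_eq_zero.mp h0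

theorem IsCoc.exists_mu (h : IsCoc B ψ) (h2 : (2 : k) ≠ 0)
    (hdd : ∀ x ∈ XX B, ψ (upperRightHom x) 1 0 = 0) :
    ∃ μ : k, ∀ x ∈ XX B, ψ (upperRightHom x) 0 0 = μ * x := by
  by_cases hX : ∃ x₀ ∈ XX B, x₀ ≠ 0
  · obtain ⟨x₀, hx₀, hne⟩ := hX
    refine ⟨ψ (upperRightHom x₀) 0 0 / x₀, fun x hx => ?_⟩
    have := h.bb_symm h2 hdd hx₀ hx
    field_simp
    linear_combination this
  · simp only [not_exists, not_and, not_not] at hX
    refine ⟨0, fun x hx => ?_⟩
    rw [hX x hx, h.u_zero]; simp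

/-- Subtracting a coboundary preserves `IsCoc`. -/
theorem IsCoc.sub_cob (h : IsCoc B ψ) (n : Matrix (Fin 2) (Fin 2) k) (hn : n.trace = 0) :
    IsCoc B (fun b => ψ b - (tw b.val n - n)) where
  upper := h.upper
  tr := fun b hb => by simp [Matrix.trace_sub, h.tr b hb, trace_tw, hn]
  coc := fun b hb c hc => by
    simp only [Units.val_mul, tw_mul, tw_sub, h.coc b hb c hc]
    abel

/-- Orders of elements of `kˣ` are prime to the characteristic. -/
theorem natCast_orderOf_ne_zero (p : ℕ) [Fact p.Prime] [CharP k p] {θ : k} (hfin : IsOfFinOrder θ) :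
    ((orderOf θ : ℕ) : k) ≠ 0 := by
  intro h0
  have hdvd : p ∣ orderOf θ := (CharP.cast_eq_zero_iff k p _).mp h0
  obtain ⟨N', hN'⟩ := hdvd
  have hpos := hfin.orderOf_pos
  have hN'pos : 0 < N' := by
    rcases Nat.eq_zero_or_pos N' with h | h
    · rw [h, mul_zero] at hN'; omega
    · exact h
  have h1 : (θ ^ N') ^ p = 1 := by
    rw [← pow_mul, mul_comm, ← hN', pow_orderOf_eq_one]
  have h2 : θ ^ N' = 1 := by
    apply frobenius_inj k p
    rw [frobenius_def, h1, map_one]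
  have h3 := orderOf_dvd_of_pow_eq_one h2
  have h4 := Nat.le_of_dvd hN'pos h3
  have hp := (Fact.out : p.Prime).two_le
  nlinarith

theorem IsCoc.exists_kappa (h : IsCoc B ψ) [Finite B] (p : ℕ) [Fact p.Prime] [CharP k p] (hp2 : p ≠ 2)
    (T : Finset k) (hT : ∀ θ ∈ T, ∃ b ∈ B, b.val.det = 1 ∧ θ = b.val 0 0 / b.val 1 1)
    (hTS : Nat.card (XX B) ≤ 2 * T.card + 1)
    (hbb : ∀ x ∈ XX B, ψ (upperRightHom x) 0 0 = 0)
    (hdd : ∀ x ∈ XX B, ψ (upperRightHom x) 1 0 = 0) :
    ∃ κ : k, ∀ x ∈ XX B, ψ (upperRightHom x) 0 1 = κ * x := by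
  by_cases hX : ∃ x₀ ∈ XX B, x₀ ≠ 0
  swap
  · simp only [not_exists, not_and, not_not] at hX
    refine ⟨0, fun x hx => ?_⟩
    rw [hX x hx, h.u_zero]; simp
  obtain ⟨x₀, hx₀, hne⟩ := hX
  have h2 : (2 : k) ≠ 0 := by
    intro h0
    have : p ∣ 2 := (CharP.cast_eq_zero_iff k p 2).mp (by exact_mod_cast h0)
    have := (Nat.prime_dvd_prime_iff_eq (Fact.out : p.Prime) Nat.prime_two).mp this
    exact hp2 this
  -- `F(b) = 0`
  have hF : ∀ b ∈ B, ψ b 1 0 = 0 := by
    intro b hb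
    have := h.conj_bb hb hx₀
    rw [hbb _ (h.conj_mem hb hx₀), hbb _ hx₀, hdd _ hx₀] at this
    have h00 := (h.diag_ne_zero hb).1
    have h11 := (h.diag_ne_zero hb).2
    have h3 : b.val 0 0 / b.val 1 1 * x₀ * ψ b 1 0 = 0 := by linear_combination this
    rcases mul_eq_zero.mp h3 with h0 | h0
    · exact absurd h0 (mul_ne_zero (div_ne_zero h00 h11) hne)
    · exact h0
  -- additivity of `aa`
  have hadd : ∀ x ∈ XX B, ∀ y ∈ XX B, ψ (upperRightHom (x + y)) 0 1 =
      ψ (upperRightHom x) 0 1 + ψ (upperRightHom y) 0 1 := by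
    intro x hx y hy
    rw [h.aa_add hx hy, hbb y hy, hdd y hy]; ring
  -- equivariance up to `m`
  have hrel : ∀ b ∈ B, b.val.det = 1 → ∀ x ∈ XX B,
      ψ (upperRightHom (b.val 0 0 / b.val 1 1 * x)) 0 1 =
        b.val 0 0 / b.val 1 1 * (ψ (upperRightHom x) 0 1 + 2 * ψ b 0 0 * x) := by
    intro b hb hdet x hx
    rw [h.conj_aa hb hx, hbb x hx, hdd x hx, hF b hb]
    have h11 := (h.diag_ne_zero hb).2
    rw [h.det_eq hb] at hdet
    have : b.val 0 0 ^ 2 = b.val 0 0 / b.val 1 1 := by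
      field_simp
      linear_combination b.val 0 0 * hdet
    rw [this]; ring
  -- `m = 0`
  have hH : ∀ b ∈ B, b.val.det = 1 → ψ b 0 0 = 0 := by
    intro b hb hdet
    have h00 := (h.diag_ne_zero hb).1
    have h11 := (h.diag_ne_zero hb).2
    set θ := b.val 0 0 / b.val 1 1 with hθ
    have hθ0 : θ ≠ 0 := div_ne_zero h00 h11
    have hmem : ∀ j : ℕ, θ ^ j * x₀ ∈ XX B := by
      intro j
      induction j with
      | zero => simpa using hx₀
      | succ j ih =>
        have := h.conj_mem hb ih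
        rw [← hθ] at this
        rw [pow_succ, mul_comm (θ ^ j) θ, mul_assoc]; exact this
    have hiter : ∀ j : ℕ, ψ (upperRightHom (θ ^ j * x₀)) 0 1 =
        θ ^ j * (ψ (upperRightHom x₀) 0 1 + j * (2 * ψ b 0 0) * x₀) := by
      intro j
      induction j with
      | zero => simp
      | succ j ih =>
        have := hrel b hb hdet _ (hmem j)
        rw [← hθ, ih] at this
        rw [pow_succ, mul_comm (θ ^ j) θ, mul_assoc, this]
        push_cast; ring
    -- `θ` has finite order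
    have hfin : IsOfFinOrder θ := by
      obtain ⟨i, j, hij, hfij⟩ := Finite.exists_ne_map_eq_of_infinite
        (fun j : ℕ => (⟨θ ^ j * x₀, hmem j⟩ : XX B))
      have hfij' : θ ^ i * x₀ = θ ^ j * x₀ := congrArg Subtype.val hfij
      have hpow : θ ^ i = θ ^ j := mul_right_cancel₀ hne hfij'
      rw [isOfFinOrder_iff_pow_eq_one]
      rcases Nat.lt_or_gt_of_ne hij with hlt | hlt
      · refine ⟨j - i, by omega, ?_⟩
        have : θ ^ i * θ ^ (j - i) = θ ^ i * 1 := by
          rw [← pow_add, mul_one, Nat.add_sub_cancel' hlt.le]; exact hpow.symm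
        exact mul_left_cancel₀ (pow_ne_zero _ hθ0) this
      · refine ⟨i - j, by omega, ?_⟩
        have : θ ^ j * θ ^ (i - j) = θ ^ j * 1 := by
          rw [← pow_add, mul_one, Nat.add_sub_cancel' hlt.le]; exact hpow
        exact mul_left_cancel₀ (pow_ne_zero _ hθ0) this
    have hN := natCast_orderOf_ne_zero p hfin
    have := hiter (orderOf θ)
    rw [pow_orderOf_eq_one, one_mul, one_mul] at this
    have h3 : ((orderOf θ : ℕ) : k) * (2 * ψ b 0 0) * x₀ = 0 := by linear_combination -this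
    rcases mul_eq_zero.mp h3 with h0 | h0
    · rcases mul_eq_zero.mp h0 with h1 | h1
      · exact absurd h1 hN
      · rcases mul_eq_zero.mp h1 with h4 | h4
        · exact absurd h4 h2
        · exact h4
    · exact absurd h0 hne
  have hequiv : ∀ b ∈ B, b.val.det = 1 → ∀ x ∈ XX B,
      ψ (upperRightHom (b.val 0 0 / b.val 1 1 * x)) 0 1 =
        b.val 0 0 / b.val 1 1 * ψ (upperRightHom x) 0 1 := by
    intro b hb hdet x hx
    rw [hrel b hb hdet x hx, hH b hb hdet]; ring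
  -- the subgroup where `aa = κ • id`
  set κ : k := ψ (upperRightHom x₀) 0 1 / x₀ with hκ
  refine ⟨κ, ?_⟩
  have hneg : ∀ x ∈ XX B, ψ (upperRightHom (-x)) 0 1 = - ψ (upperRightHom x) 0 1 := by
    intro x hx
    have := hadd x hx (-x) ((XX B).neg_mem hx)
    rw [add_neg_cancel, h.u_zero] at this
    simp only [Matrix.zero_apply] at this
    linear_combination -this
  let K : AddSubgroup k :=
    { carrier := {x | x ∈ XX B ∧ ψ (upperRightHom x) 0 1 = κ * x}
      zero_mem' := ⟨(XX B).zero_mem, by rw [h.u_zero]; simp⟩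
      add_mem' := by
        rintro x y ⟨hx, hx'⟩ ⟨hy, hy'⟩
        exact ⟨(XX B).add_mem hx hy, by rw [hadd x hx y hy, hx', hy']; ring⟩
      neg_mem' := by
        rintro x ⟨hx, hx'⟩
        exact ⟨(XX B).neg_mem hx, by rw [hneg x hx, hx']; ring⟩ }
  have hKX : K ≤ XX B := fun x hx => hx.1
  classical
  -- `K ⊇ {0} ∪ T x₀`
  let S : Finset k := insert 0 (T.image (fun θ => θ * x₀))
  have hθne : ∀ θ ∈ T, θ ≠ 0 := by
    intro θ hθ
    obtain ⟨b, hb, -, rfl⟩ := hT θ hθ
    exact div_ne_zero (h.diag_ne_zero hb).1 (h.diag_ne_zero hb).2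
  have hScard : S.card = T.card + 1 := by
    rw [Finset.card_insert_of_notMem, Finset.card_image_of_injective]
    · intro a b hab; exact mul_right_cancel₀ hne hab
    · intro h0
      obtain ⟨θ, hθ, h1⟩ := Finset.mem_image.mp h0
      rcases mul_eq_zero.mp h1 with h3 | h3
      · exact hθne θ hθ h3
      · exact hne h3
  have hSK : (S : Set k) ⊆ (K : Set k) := by
    intro x hx
    rcases Finset.mem_insert.mp (Finset.mem_coe.mp hx) with rfl | hx
    · exact K.zero_mem
    · obtain ⟨θ, hθ, rfl⟩ := Finset.mem_image.mp hx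
      obtain ⟨b, hb, hdet, rfl⟩ := hT θ hθ
      refine ⟨h.conj_mem hb hx₀, ?_⟩
      rw [hequiv b hb hdet x₀ hx₀, hκ]
      field_simp
  have hKfin : (K : Set k).Finite := by
    have : (XX B : Set k).Finite :=
      Set.finite_coe_iff.mp (show Finite (XX B) from inferInstance)
    exact this.subset hKX
  have hcardK : T.card + 1 ≤ Nat.card K := by
    rw [← hScard, ← Set.ncard_coe_finset S]
    have := Set.ncard_le_ncard hSK hKfin
    rwa [← Nat.card_coe_set_eq (K : Set k)] at this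
  have hdvd : Nat.card K ∣ Nat.card (XX B) := AddSubgroup.card_dvd_of_le hKX
  have hpos : 0 < Nat.card (XX B) := Nat.card_pos
  have hKeq : K = XX B := by
    apply AddSubgroup.eq_of_le_of_card_ge hKX
    obtain ⟨c, hc⟩ := hdvd
    rcases Nat.lt_or_ge c 2 with hc2 | hc2
    · interval_cases c
      · omega
      · omega
    · nlinarith
  intro x hx
  have : x ∈ K := by rw [hKeq]; exact hx
  exact this.2

/-- **Main result.** `B` a finite upper-triangular subgroup of `GL₂(k)`, `char k = p` odd, `ψ` a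
trace-zero cocycle on `B` for the twisted adjoint action `tw`.  If the torus part of `B ∩ SL₂`
is large (`|X| ≤ 2|T| + 1`, `T` a set of ratios `b₀₀/b₁₁` of determinant-one elements of `B`,
`X = {x : u(x) ∈ B}`) and, when `p = 5`, some `b ∈ B` has `det b ^ 2 ≠ 1`, then `ψ` restricted to
the unipotent part `{u(x) : x ∈ X}` is a coboundary. -/
theorem IsCoc.exists_coboundary_on_unip (h : IsCoc B ψ) [Finite B] (p : ℕ) [Fact p.Prime]
    [CharP k p] (hp2 : p ≠ 2)
    (T : Finset k) (hT : ∀ θ ∈ T, ∃ b ∈ B, b.val.det = 1 ∧ θ = b.val 0 0 / b.val 1 1)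
    (hTS : Nat.card (XX B) ≤ 2 * T.card + 1) (h5 : p = 5 → ∃ b ∈ B, b.val.det ^ 2 ≠ 1) :
    ∃ m : Matrix (Fin 2) (Fin 2) k, m.trace = 0 ∧
      ∀ x : k, upperRightHom x ∈ B → ψ (upperRightHom x) = tw (upperRightHom x).val m - m := by
  have h2 : (2 : k) ≠ 0 := by
    intro h0
    have : p ∣ 2 := (CharP.cast_eq_zero_iff k p 2).mp (by exact_mod_cast h0)
    have := (Nat.prime_dvd_prime_iff_eq (Fact.out : p.Prime) Nat.prime_two).mp this
    exact hp2 this
  have hdd : ∀ x ∈ XX B, ψ (upperRightHom x) 1 0 = 0 :=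
    fun x hx => h.dd_eq_zero p hp2 T hT hTS h5 hx
  obtain ⟨μ, hμ⟩ := h.exists_mu h2 hdd
  set n : Matrix (Fin 2) (Fin 2) k := !![0, 0; μ, 0] with hn
  have hntr : n.trace = 0 := by simp [hn, Matrix.trace_fin_two]
  have h' := h.sub_cob n hntr
  have hbb' : ∀ x ∈ XX B, (fun b : GL (Fin 2) k => ψ b - (tw b.val n - n)) (upperRightHom x) 0 0 = 0 := by
    intro x hx
    simp only [Matrix.sub_apply, tw_apply_00, val_u_00, val_u_01, val_u_10, val_u_11, hμ x hx]
    simp [-upperRightHom_apply, hn]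
    ring
  have hdd' : ∀ x ∈ XX B, (fun b : GL (Fin 2) k => ψ b - (tw b.val n - n)) (upperRightHom x) 1 0 = 0 := by
    intro x hx
    simp only [Matrix.sub_apply, tw_apply_10, val_u_00, val_u_01, val_u_10, val_u_11, hdd x hx]
    simp [-upperRightHom_apply, hn]
  obtain ⟨κ, hκ⟩ := h'.exists_kappa p hp2 T hT hTS hbb' hdd'
  have haa : ∀ x ∈ XX B, ψ (upperRightHom x) 0 1 = κ * x - μ * x ^ 2 := by
    intro x hx
    have := hκ x hx
    simp only [Matrix.sub_apply, tw_apply_01, val_u_00, val_u_01, val_u_10, val_u_11] at this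
    simp [-upperRightHom_apply, hn] at this
    linear_combination this
  refine ⟨!![-κ / 2, 0; μ, κ / 2], by simp [Matrix.trace_fin_two]; ring, fun x hx => ?_⟩
  have hx' : x ∈ XX B := hx
  ext i j
  fin_cases i <;> fin_cases j
  · simp only [Fin.zero_eta, Fin.isValue, Matrix.sub_apply, tw_apply_00, val_u_00, val_u_01, val_u_10,
      val_u_11, hμ x hx']
    simp [-upperRightHom_apply]
    ring
  · simp only [Fin.zero_eta, Fin.mk_one, Fin.isValue, Matrix.sub_apply, tw_apply_01, val_u_00, val_u_01,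
      val_u_10, val_u_11, haa x hx']
    simp [-upperRightHom_apply]
    field_simp
    ring
  · simp only [Fin.zero_eta, Fin.mk_one, Fin.isValue, Matrix.sub_apply, tw_apply_10, val_u_00, val_u_01,
      val_u_10, val_u_11, hdd x hx']
    simp
  · simp only [Fin.mk_one, Fin.isValue, Matrix.sub_apply, tw_apply_11, val_u_00, val_u_01,
      val_u_10, val_u_11, h.apply_11 hx', hμ x hx']
    simp [-upperRightHom_apply]
    try ring

end main

section wrappers

variable {B : Subgroup (GL (Fin 2) k)} {ψ : GL (Fin 2) k → Matrix (Fin 2) (Fin 2) k}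

/-- `IsCoc` from the cocycle identity written with `det g • (g * m * g⁻¹)`. -/
theorem IsCoc.of_det_smul_conj (hB : ∀ b ∈ B, b.val 1 0 = 0) (htr : ∀ b ∈ B, (ψ b).trace = 0)
    (hcoc : ∀ b ∈ B, ∀ c ∈ B, ψ (b * c) = ψ b + b.val.det • (b.val * ψ c * (b⁻¹).val)) :
    IsCoc B ψ where
  upper := hB
  tr := htr
  coc := fun b hb c hc => by rw [hcoc b hb c hc, tw_eq_det_smul_conj]

/-- The set of torus ratios of `B ∩ SL₂`. -/
def torusRatios (B : Subgroup (GL (Fin 2) k)) : Set k :=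
  {θ | ∃ b ∈ B, b.val.det = 1 ∧ θ = b.val 0 0 / b.val 1 1}

theorem torusRatios_finite [Finite B] : (torusRatios B).Finite := by
  have : torusRatios B ⊆ Set.range (fun b : B => b.1.val 0 0 / b.1.val 1 1) := by
    rintro θ ⟨b, hb, -, rfl⟩
    exact ⟨⟨b, hb⟩, rfl⟩
  exact (Set.finite_range _).subset this

/-- Version of the main result with the torus-size hypothesis stated via `Set.ncard`. -/
theorem IsCoc.exists_coboundary_on_unip' (h : IsCoc B ψ) [Finite B] (p : ℕ) [Fact p.Prime]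
    [CharP k p] (hp2 : p ≠ 2)
    (hTS : Nat.card (XX B) ≤ 2 * (torusRatios B).ncard + 1)
    (h5 : p = 5 → ∃ b ∈ B, b.val.det ^ 2 ≠ 1) :
    ∃ m : Matrix (Fin 2) (Fin 2) k, m.trace = 0 ∧
      ∀ x : k, upperRightHom x ∈ B → ψ (upperRightHom x) = tw (upperRightHom x).val m - m := by
  classical
  have hfin := torusRatios_finite (B := B)
  refine h.exists_coboundary_on_unip p hp2 hfin.toFinset ?_ ?_ h5
  · intro θ hθ
    exact (Set.Finite.mem_toFinset hfin).mp hθ
  · rwa [← Set.ncard_eq_toFinset_card _ hfin]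

end wrappers

section averaging

/-- Coset averaging: a cocycle vanishing on a subgroup of index invertible in `k` is a coboundary. -/
theorem exists_coboundary_of_vanish_aux {Γ M : Type*} [Group Γ] [Finite Γ] [AddCommGroup M]
    [Module k M] (act : Γ → M →ₗ[k] M)
    (ψ : Γ → M) (hcoc : ∀ g h, ψ (g * h) = ψ g + act g (ψ h))
    (P : Subgroup Γ) (hP : ∀ u ∈ P, ψ u = 0) (hidx : ((P.index : ℕ) : k) ≠ 0) :
    ∃ m ∈ Submodule.span k (Set.range ψ), ∀ g, ψ g = act g m - m := by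
  classical
  have : Fintype (Γ ⧸ P) := Fintype.ofFinite _
  have hconst : ∀ g, ∀ u ∈ P, ψ (g * u) = ψ g := by
    intro g u hu
    rw [hcoc, hP u hu, map_zero, add_zero]
  let f : Γ ⧸ P → M := fun c => ψ c.out
  have hf : ∀ g : Γ, f (g : Γ ⧸ P) = ψ g := by
    intro g
    obtain ⟨u, hu⟩ := QuotientGroup.mk_out_eq_mul P g
    show ψ (Quotient.out (g : Γ ⧸ P)) = ψ g
    rw [hu]; exact hconst g u u.2
  set m' : M := ∑ c, f c with hm'
  have hm'mem : m' ∈ Submodule.span k (Set.range ψ) :=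
    Submodule.sum_mem _ fun c _ => Submodule.subset_span ⟨_, rfl⟩
  have hkey : ∀ h : Γ, act h m' = m' - (P.index : k) • ψ h := by
    intro h
    have h1 : ∀ c : Γ ⧸ P, act h (f c) = f (h • c) - ψ h := by
      intro c
      have hc : h • c = ((h * c.out : Γ) : Γ ⧸ P) := by
        conv_lhs => rw [← QuotientGroup.out_eq' c]
        rfl
      rw [hc, hf, hcoc]
      show act h (ψ c.out) = _
      abel
    rw [hm', map_sum]
    simp_rw [h1]
    rw [Finset.sum_sub_distrib, Finset.sum_const, Finset.card_univ,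
      (MulAction.bijective h).sum_comp f, Subgroup.index_eq_card, Nat.card_eq_fintype_card,
      Nat.cast_smul_eq_nsmul]
  refine ⟨-((P.index : k)⁻¹ • m'), Submodule.neg_mem _ (Submodule.smul_mem _ _ hm'mem), fun g => ?_⟩
  rw [map_neg, map_smul, hkey g, smul_sub, smul_smul, inv_mul_cancel₀ hidx, one_smul]
  abel

/-- `tw g` as a `k`-linear map. -/
def twLin (g : Matrix (Fin 2) (Fin 2) k) :
    Matrix (Fin 2) (Fin 2) k →ₗ[k] Matrix (Fin 2) (Fin 2) k where
  toFun := tw g
  map_add' := tw_add g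
  map_smul' c m := by simp [tw, Matrix.mul_smul, Matrix.smul_mul]

theorem twLin_apply (g m : Matrix (Fin 2) (Fin 2) k) : twLin g m = tw g m := rfl

/-- A trace-zero `tw`-cocycle on a finite `G ≤ GL₂(k)` vanishing on a subgroup `P ≤ G` of index
invertible in `k` is the coboundary of a trace-zero matrix. -/
theorem exists_coboundary_of_vanish {G P : Subgroup (GL (Fin 2) k)} [Finite G]
    {ψ : GL (Fin 2) k → Matrix (Fin 2) (Fin 2) k}
    (htr : ∀ g ∈ G, (ψ g).trace = 0)
    (hcoc : ∀ g ∈ G, ∀ h ∈ G, ψ (g * h) = ψ g + tw g.val (ψ h))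
    (hP : ∀ u ∈ P, u ∈ G → ψ u = 0) (hidx : ((P.relIndex G : ℕ) : k) ≠ 0) :
    ∃ m : Matrix (Fin 2) (Fin 2) k, m.trace = 0 ∧ ∀ g ∈ G, ψ g = tw g.val m - m := by
  obtain ⟨m, hm, hmg⟩ := exists_coboundary_of_vanish_aux (k := k) (Γ := G)
    (fun g => twLin g.1.val) (fun g => ψ g.1)
    (fun g h => by simpa [twLin_apply] using hcoc g.1 g.2 h.1 h.2)
    (P.subgroupOf G) (fun u hu => hP u.1 (Subgroup.mem_subgroupOf.mp hu) u.2) hidx
  refine ⟨m, ?_, fun g hg => by simpa [twLin_apply] using hmg ⟨g, hg⟩⟩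
  have hle : Submodule.span k (Set.range fun g : G => ψ g.1) ≤
      LinearMap.ker (Matrix.traceLinearMap (Fin 2) k k) := by
    rw [Submodule.span_le]
    rintro _ ⟨g, rfl⟩
    exact htr g.1 g.2
  exact hle hm

end averaging

section final

/-- Upper triangular matrices in `GL₂(k)`. -/
def borel (k : Type*) [Field k] : Subgroup (GL (Fin 2) k) where
  carrier := {g | g.val 1 0 = 0}
  one_mem' := by simp
  mul_mem' := by
    intro g h hg hh
    have hg' : g.val 1 0 = 0 := hg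
    have hh' : h.val 1 0 = 0 := hh
    show (g * h).val 1 0 = 0
    rw [Units.val_mul, Matrix.mul_apply, Fin.sum_univ_two, hg', hh']; ring
  inv_mem' := by
    intro g hg
    have hg' : g.val 1 0 = 0 := hg
    show (g⁻¹).val 1 0 = 0
    have h1 : (g * g⁻¹).val 1 0 = 0 := by rw [mul_inv_cancel]; simp
    rw [Units.val_mul, Matrix.mul_apply, Fin.sum_univ_two, hg', zero_mul, zero_add] at h1
    have hdet : g.val.det ≠ 0 := by
      have := g.isUnit
      exact (Matrix.isUnit_iff_isUnit_det _).mp this |>.ne_zero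
    rw [Matrix.det_fin_two, hg'] at hdet
    have h11 : g.val 1 1 ≠ 0 := by
      intro h0; apply hdet; rw [h0]; ring
    exact (mul_eq_zero.mp h1).resolve_left h11

theorem mem_borel {g : GL (Fin 2) k} : g ∈ borel k ↔ g.val 1 0 = 0 := Iff.rfl

/-- Upper unipotent matrices in `GL₂(k)`. -/
def unip (k : Type*) [Field k] : Subgroup (GL (Fin 2) k) :=
  (upperRightHom (R := k)).toMonoidHom.range

theorem mem_unip {g : GL (Fin 2) k} : g ∈ unip k ↔ ∃ x : k, upperRightHom x = g := by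
  unfold unip
  rw [MonoidHom.mem_range]
  constructor
  · rintro ⟨x, hx⟩; exact ⟨x.toAdd, hx⟩
  · rintro ⟨x, hx⟩; exact ⟨Multiplicative.ofAdd x, hx⟩

theorem u_mem_borel (x : k) : upperRightHom x ∈ borel k := rfl

/-- **Packaged form.**  `G ≤ GL₂(k)` finite, `char k = p` odd, `ψ` a trace-zero cocycle on `G` for
`g • m = g * m * adj g = det g • g m g⁻¹`.  Assume the upper unipotent part `G ∩ U` has index prime
to `p` in `G` (i.e. it is a Sylow `p`-subgroup), the torus-size inequality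
`|X| ≤ 2 |T| + 1` holds for `G ∩ B` (`X = {x : u(x) ∈ G}`, `T` ratios `b₀₀/b₁₁` of upper triangular
determinant-one elements of `G`), and for `p = 5` some upper triangular `b ∈ G` has
`(det b)² ≠ 1`.  Then `ψ` is a coboundary. -/
theorem exists_coboundary_of_borel {G : Subgroup (GL (Fin 2) k)} [Finite G] (p : ℕ) [Fact p.Prime]
    [CharP k p] (hp2 : p ≠ 2) {ψ : GL (Fin 2) k → Matrix (Fin 2) (Fin 2) k}
    (htr : ∀ g ∈ G, (ψ g).trace = 0)
    (hcoc : ∀ g ∈ G, ∀ h ∈ G, ψ (g * h) = ψ g + tw g.val (ψ h))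
    (hidx : (((unip k).relIndex G : ℕ) : k) ≠ 0)
    (T : Finset k)
    (hT : ∀ θ ∈ T, ∃ b ∈ G, b.val 1 0 = 0 ∧ b.val.det = 1 ∧ θ = b.val 0 0 / b.val 1 1)
    (hTS : Nat.card (XX G) ≤ 2 * T.card + 1)
    (h5 : p = 5 → ∃ b ∈ G, b.val 1 0 = 0 ∧ b.val.det ^ 2 ≠ 1) :
    ∃ m : Matrix (Fin 2) (Fin 2) k, m.trace = 0 ∧ ∀ g ∈ G, ψ g = tw g.val m - m := by
  set B : Subgroup (GL (Fin 2) k) := G ⊓ borel k with hBdef
  have hBG : B ≤ G := inf_le_left
  have : Finite B := Finite.of_injective (fun b : B => (⟨b.1, hBG b.2⟩ : G))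
    (fun a b hab => Subtype.ext (congrArg (fun g : G => g.1) hab))
  have hcocB : IsCoc B ψ :=
    { upper := fun b hb => (Subgroup.mem_inf.mp hb).2
      tr := fun b hb => htr b (hBG hb)
      coc := fun b hb c hc => hcoc b (hBG hb) c (hBG hc) }
  have hXX : XX B = XX G := by
    ext x
    constructor
    · intro hx; exact hBG hx
    · intro hx; exact Subgroup.mem_inf.mpr ⟨hx, u_mem_borel x⟩
  obtain ⟨m₁, hm₁tr, hm₁⟩ := hcocB.exists_coboundary_on_unip p hp2 T
    (fun θ hθ => by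
      obtain ⟨b, hb, hb10, hdet, hθ'⟩ := hT θ hθ
      exact ⟨b, Subgroup.mem_inf.mpr ⟨hb, hb10⟩, hdet, hθ'⟩)
    (by rw [hXX]; exact hTS)
    (fun h => by
      obtain ⟨b, hb, hb10, hdet⟩ := h5 h
      exact ⟨b, Subgroup.mem_inf.mpr ⟨hb, hb10⟩, hdet⟩)
  -- subtract the coboundary of `m₁`
  obtain ⟨m₂, hm₂tr, hm₂⟩ := exists_coboundary_of_vanish (G := G) (P := unip k)
    (ψ := fun g => ψ g - (tw g.val m₁ - m₁))
    (fun g hg => by simp [Matrix.trace_sub, htr g hg, trace_tw, hm₁tr])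
    (fun g hg h hh => by
      simp only [Units.val_mul, tw_mul, tw_sub, hcoc g hg h hh]
      abel)
    (fun u hu huG => by
      obtain ⟨x, rfl⟩ := mem_unip.mp hu
      have hxB : upperRightHom x ∈ B := Subgroup.mem_inf.mpr ⟨huG, u_mem_borel x⟩
      simp only [hm₁ x hxB, sub_self])
    hidx
  refine ⟨m₁ + m₂, by rw [Matrix.trace_add, hm₁tr, hm₂tr, add_zero], fun g hg => ?_⟩
  have := hm₂ g hg
  rw [tw_add]
  have h3 : ψ g = (tw g.val m₂ - m₂) + (tw g.val m₁ - m₁) := by
    rw [← this]; abel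
  rw [h3]; abel

end final

end Fermat.Agent.GP.TW.H1Van.Unip
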